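import Mathlib
import Fermat.Agent.LT.T7.H298.MatchQCut
import Fermat.Agent.LT.T7.H340.FactUpSpec

/-!
# Row LT, tower T7, node Q2.7.13 `MQ298.FactUpQC298` (registry row 2676, helper514):
# THE CUT over `ℚ` -- Spec

OFF-MAIN.  Definitions and frozen Props only (the proved top is `FactUpQTop.lean`).  No hole,
nothing assumed.  ADDITIVE (new names only, suffix `514`, namespace
`Fermat.Agent.LT.T7.FUQ514`).  MIRROR over `ℚ` of the cut of the cubic node `H305.FactUpC305` by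
helper340 (`T7/H340/FactUpSpec.lean`, helper340@b1879b9c4, sha256 786596dd), which is imported
AS IT IS: `locTwInt340`, `splitInt340`, `IsInertVal340` are REUSED VERBATIM (they carry no
hypothesis on the degree or on the infinite places).  Vocabulary over `ℚ`:
`T7/H298/MatchQSpec.lean`, `T7/H298/MatchQCut.lean` (helper298@076793e90, sha256 74dc2a3c).

    factUpQC_of514 : UpFactQC514 F → LocEqInertQC514 F → LocEqSplitQC514 F → LocEqArchQC514 F
                       → MQ298.FactUpQC298 F                                     (VERBATIM)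

## The cut (as in the cubic case: three steps which do not interact)

`F/ℚ` imaginary quadratic, `l = 2`, `N δ = γ` elliptic, `γ` good outside `S`, `δ` integral
outside `S'`.

1. (`UpFactQC514`, NODE: global → local upstairs, NO matching)  For the product cut-off upstairs
   the cut-off integral is `(c'_G / c_T) ∑_j ∏_{v ∈ S} J_v · J_∞(j)`:
   * `v ∈ S` with ONE place over it: `H340.IsInertVal340` (VERBATIM);
   * `v ∈ S` split: `IsSplitValQ514` = `H340.IsSplitVal340` with the local data over `ℚ`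
     (`MQ298.LocDataQ298`);
   * the infinite place, `IsArchValQ514`: `F` has ONE infinite place `w`, complex, over the real
     place; the conjugation of `F` is the complex conjugation in the coordinate of `w`:
     `J_∞(j) = ∫_{GL₂(ℂ)} Φ_w(x⁻¹ (δ r'^j)_w x̄) β'(x) dμc(x)`, `β'` a continuous cut-off function
     on `GL₂(ℂ)` for the image of the centraliser of `γ_∞` in `GL₂(ℝ)` with the measure `L.μtr`
     DOWNSTAIRS (the twisted centraliser of `δ_w` is that image: `T6.TwCentC`).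
2. (`LocEqInertQC514`, `LocEqSplitQC514`, LEAVES, local, finite places)  `J_v = I_v`
   (`locInt305`), by `LocHypQ298.inert`, `LocHypQ298.split` (the SAME clauses as `LocHyp305`):
   the proofs of `H340.LocEqInertC340` (helper555) and `H340.LocEqSplitC340` port verbatim.
3. (`LocEqArchQC514`, LEAF, local, infinite place)  `J_∞(j) = I_∞(j)`: FIRST clause of
   `T6.IsArchMatch` (`LocHypQ298.arch w`) for `(γ r^j)_∞` and `(δ r'^j)_w`.

FALSITY CHECKS (helper514).  (1) Constant: `c'_G` = the constant of `H305.HaarSplitC305 F` (`F` is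
totally complex) for `D.R'.μ`, `μc` and the levels `n`; at a split `v ∈ S` the levels agree
(`LocHypQ298.split`) and the images of the normalised measures upstairs under `i_j⁻¹` are
`L.μv v`.  (2) The torus constant is the one DOWNSTAIRS (`IsTorLinked305`); at the infinite place
the local torus measure is `L.μtr` on the centraliser of `γ_∞`, and the cut-off functions `β'`
(upstairs) and `L.βr` (downstairs, `IsLocDataQ298.cutr`) are normalised against THE SAME measure,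
as `T6.IsArchMatch` requires.  (3) Ray: the real component of `D.R.r` is the positive scalar `t`,
`t² = 2`, the component of `D.R'.r` at `w` is the positive scalar `t'`, `t'⁴ = 2`, so `t'² = t`;
`(γ r^j)_∞ = t^j γ_∞` is regular with the centraliser of `γ_∞` (transport of `L.μtr` along the
equality of the subgroups), and `(δ r'^j)_w conj((δ r'^j)_w) = t^j (N δ)_w = ((γ r^j)_∞)_ℂ`
(`w ∘ σ = conj ∘ w` as embeddings: `σ ≠ 1`, two embeddings).  (4) The finite components of `r`,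
`r'` are trivial: `J_v` does not depend on `j`.  (5) `T6.IsArchMatch` quantifies over ALL
admissible `β'`: the leaf of step 3 is stated for every admissible choice.
-/

set_option autoImplicit false

open AutomorphicForm IsDedekindDomain NumberField MeasureTheory
open scoped ComplexConjugate

noncomputable section

namespace Fermat.Agent.LT.T7.FUQ514

open Fermat.Agent.LT.H556 Fermat.Agent.LT.H556.A0 Fermat.Agent.LT.T7 Fermat.Agent.LT.T7.H305
open Fermat.Agent.LT.T7.MQ298 Fermat.Agent.LT.T7.H340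

attribute [local instance] Fermat.Agent.LT.T5.instMeasurableSpaceG

/-! ## 1. The local integrals upstairs over `ℚ` -/

section Defs

variable {F : Type} [Field F] [NumberField F]

/-- `J` is THE LOCAL TWISTED INTEGRAL UPSTAIRS at the SPLIT place `v` of `ℚ`, in the coordinates
of `ℚ_v`, with the local Haar measure and the local cut-off function DOWNSTAIRS
(`H340.IsSplitVal340` with the local data `MQ298.LocDataQ298`). -/
def IsSplitValQ514 (D : CompData ℚ F)
    (φ₀ : ∀ w : HeightOneSpectrum (𝓞 F), GL (Fin 2) (w.adicCompletion F) → ℂ)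
    (δ : GL (Fin 2) F) {γ : GL (Fin 2) ℚ} (L : LocDataQ298 γ)
    (v : HeightOneSpectrum (𝓞 ℚ)) (J : ℂ) : Prop :=
  ∃ (hl : 0 < D.l) (w : ℕ → HeightOneSpectrum (𝓞 F))
    (i : ∀ j : ℕ, v.adicCompletion ℚ ≃+* (w j).adicCompletion F),
    (∀ j : ℕ, PlaceOver ℚ F v (w j)) ∧
    (∀ j : ℕ, T5.PlaceRel D.s (w (j + 1)) (w j)) ∧
    (∀ j : ℕ, 0 < j → j < D.l → w j ≠ w 0) ∧
    (∀ (j : ℕ) (x : ℚ), i j (algebraMap ℚ (v.adicCompletion ℚ) x)
      = algebraMap F ((w j).adicCompletion F) (algebraMap ℚ F x)) ∧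
    (∀ (j : ℕ) (x : v.adicCompletion ℚ), Valued.v (i j x) = Valued.v x) ∧
    J = splitInt340 D.l hl (L.μv v) (L.βv v)
        (fun j g => φ₀ (w j)
          (Matrix.GeneralLinearGroup.map ((i j : v.adicCompletion ℚ ≃+* _) :
            v.adicCompletion ℚ →+* (w j).adicCompletion F) g))
        (fun j => Matrix.GeneralLinearGroup.map
          (((i j).symm : (w j).adicCompletion F ≃+* _) :
            (w j).adicCompletion F →+* v.adicCompletion ℚ) (locG305 (w j) δ))

/-- `J` is THE LOCAL TWISTED INTEGRAL UPSTAIRS at the infinite place for the index `j` of the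
ray: `∫_{GL₂(ℂ)} Φ_w(x⁻¹ (δ r'^j)_w x̄) β'(x) dμc(x)` for an infinite place `w` of `F` and SOME
continuous cut-off function `β' ≥ 0` on `GL₂(ℂ)` with `∫ β'(t_ℂ x) dμtr(t) = 1` for all `x`, `t`
in the centraliser of `γ_∞` in `GL₂(ℝ)` (the cut-off data of `T6.IsArchMatch`, for the torus
measure `L.μtr` DOWNSTAIRS). -/
def IsArchValQ514 (D : CompData ℚ F) (Φ : InfinitePlace F → GL (Fin 2) ℂ → ℂ)
    (δ : GL (Fin 2) F) {γ : GL (Fin 2) ℚ} (L : LocDataQ298 γ)
    (μc : @Measure (GL (Fin 2) ℂ) (borel _)) (j : ℤ) (J : ℂ) : Prop :=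
  ∃ (w : InfinitePlace F) (β' : GL (Fin 2) ℂ → ℝ),
    Continuous β' ∧ (∀ x, 0 ≤ β' x) ∧
    (∀ x : GL (Fin 2) ℂ,
      @integral _ _ _ _ (borel _) L.μtr
        (fun t : cent305 (reGLQ298 (T5.ratG γ)) =>
          β' (Matrix.GeneralLinearGroup.map (algebraMap ℝ ℂ) (t : GL (Fin 2) ℝ) * x)) = 1) ∧
    J = @integral _ _ _ _ (borel _) μc
        (fun x : GL (Fin 2) ℂ =>
          Φ w (x⁻¹ * infGL305 w (T5.ratG δ * D.R'.r ^ j)
              * T6.glAut (starRingAut : ℂ ≃+* ℂ) x) * ((β' x : ℝ) : ℂ))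

end Defs

/-! ## 2. The node and the leaves -/

section Leaves

variable (F : Type) [Field F] [NumberField F]

/-- **NODE Q2.7.13.1 = UP-FACT over `ℚ` (global → local upstairs, NO matching).**  Mirror of
`H340.UpFactC340`.  The constant `c'_G` depends on `D`, `ι`, `μr`, `μc`, `T₀`, `n`, `m` only.
Proof.  As `UpFactC340` (see there), with: `H305.HaarSplitC305 F` (`F` is totally complex; levels
`n`), `IsTorConstQ298`, `IsTorLinked305`; LOCAL DATA at the infinite place: the place `w` of `F`,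
`β'_w` a continuous cut-off function on `GL₂(ℂ)` for the image of the centraliser of `γ_∞` with
the measure `L.μtr` (closed subgroup of `GL₂(ℂ)`: `exists_cutoff584`); CUT-OFF:
`β' = c_T⁻¹ 1_{Out_{S'}} ∏_{v ∈ S} β'_v · β'_w(y_w)`; the component of `σ_𝔸` at `w` is the complex
conjugation (`SigmaLocC305`-form: `w ∘ σ = conj ∘ w` on `F`, density), so the component at `w` of
`y⁻¹ δ r'^j σ(y)` is `y_w⁻¹ (δ r'^j)_w conj(y_w)`. -/
def UpFactQC514 : Prop :=
  T6.T6Out → IsImagQuad F →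
  ∀ D : CompData ℚ F, IsCompData D → IsCycExt ℚ F D.l → D.l = 2 →
    ∀ ι : Adl ℚ →+* Adl F, IsAdeleBase305 D.s D.l ι →
    ∀ μr : @Measure (GL (Fin 2) ℝ) (borel _), @Measure.IsHaarMeasure _ _ _ (borel _) μr →
    ∀ μc : @Measure (GL (Fin 2) ℂ) (borel _), @Measure.IsHaarMeasure _ _ _ (borel _) μc →
    ∀ (T₀ : Finset (HeightOneSpectrum (𝓞 ℚ))), UnramOut305 (K' := F) T₀ →
    ∀ (n : HeightOneSpectrum (𝓞 F) → ℕ) (m : HeightOneSpectrum (𝓞 ℚ) → ℕ),
      IsLevelAt305 T₀ n m →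
    ∃ cG' : ℝ, 0 < cG' ∧
      ∀ (S : Finset (HeightOneSpectrum (𝓞 ℚ))) (S' : Finset (HeightOneSpectrum (𝓞 F))),
        T₀ ⊆ S → IsOver305 S S' →
      ∀ (φ₀ : ∀ w : HeightOneSpectrum (𝓞 F), GL (Fin 2) (w.adicCompletion F) → ℂ)
        (Φ : InfinitePlace F → GL (Fin 2) ℂ → ℂ)
        (f₀ : ∀ v : HeightOneSpectrum (𝓞 ℚ), GL (Fin 2) (v.adicCompletion ℚ) → ℂ)
        (F0 F1 : GL (Fin 2) ℝ → ℂ),
        LocHypQ298 D μr μc S n m φ₀ Φ f₀ F0 F1 →
      ∀ (δ : GL (Fin 2) F) (γ : GL (Fin 2) ℚ), T6.IsEll γ →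
        D.s.normUpTo D.l δ = Matrix.GeneralLinearGroup.map (algebraMap ℚ F) γ →
        GoodOut305 S γ → IntOut305 S' δ →
      ∀ (μT : @Measure (tA305 (T5.AdelicAut.id ℚ) γ) (borel _))
        (μT' : @Measure (tA305 D.s δ) (borel _)),
        @Measure.IsHaarMeasure _ _ _ (borel _) μT →
        @Measure.IsHaarMeasure _ _ _ (borel _) μT' →
        IsTorLinked305 ι D.s δ γ μT μT' →
      ∀ (L : LocDataQ298 γ) (cT : ℝ), IsLocDataQ298 m L → 0 < cT → IsTorConstQ298 γ μT L cT →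
        ∃ (β' : G F → ℝ) (J : HeightOneSpectrum (𝓞 ℚ) → ℂ) (Jc : ℤ → ℂ),
          IsCutOn305 D.s δ μT' β'
              {x | T5.twTerm D.R'.r D.s (pure305 S' φ₀ Φ) δ x ≠ 0} ∧
            cutInt305 D.R'.r D.s (pure305 S' φ₀ Φ) δ D.R'.μ β'
              = ((cG' / cT : ℝ) : ℂ) * ∑' j : ℤ, (∏ v ∈ S, J v) * Jc j ∧
            (∀ v ∈ S, IsInertVal340 D n φ₀ δ v (J v) ∨ IsSplitValQ514 D φ₀ δ L v (J v)) ∧
            ∀ j : ℤ, IsArchValQ514 D Φ δ L μc j (Jc j)

/-- **LEAF Q2.7.13.2 = LOC-EQ-INERT over `ℚ` (local; one place over `v`).**  Mirror of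
`H340.LocEqInertC340`: the local twisted integral upstairs is the local integral downstairs.
Proof.  The proof of `H340.LocEqInertC340` (helper555, `T7/H555/LocEqInert.lean`) with
`LocHypQ298.inert` in place of `LocHyp305.inert` (the same clause for `K = ℚ`, `K' = F`); it uses
`T6Out` (`InstLocalC`, `InstExtC`, `OrbSumExC`, `OrbSumIntC`) and neither `D.l ≠ 2` nor
`TotCplx`. -/
def LocEqInertQC514 : Prop :=
  T6.T6Out → IsImagQuad F →
  ∀ D : CompData ℚ F, IsCompData D → IsCycExt ℚ F D.l → D.l = 2 →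
    ∀ (μr : @Measure (GL (Fin 2) ℝ) (borel _)) (μc : @Measure (GL (Fin 2) ℂ) (borel _))
      (S : Finset (HeightOneSpectrum (𝓞 ℚ)))
      (n : HeightOneSpectrum (𝓞 F) → ℕ) (m : HeightOneSpectrum (𝓞 ℚ) → ℕ)
      (φ₀ : ∀ w : HeightOneSpectrum (𝓞 F), GL (Fin 2) (w.adicCompletion F) → ℂ)
      (Φ : InfinitePlace F → GL (Fin 2) ℂ → ℂ)
      (f₀ : ∀ v : HeightOneSpectrum (𝓞 ℚ), GL (Fin 2) (v.adicCompletion ℚ) → ℂ)
      (F0 F1 : GL (Fin 2) ℝ → ℂ),
      LocHypQ298 D μr μc S n m φ₀ Φ f₀ F0 F1 →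
    ∀ (δ : GL (Fin 2) F) (γ : GL (Fin 2) ℚ), T6.IsEll γ →
      D.s.normUpTo D.l δ = Matrix.GeneralLinearGroup.map (algebraMap ℚ F) γ →
    ∀ L : LocDataQ298 γ, IsLocDataQ298 m L →
    ∀ v ∈ S, ∀ J : ℂ, IsInertVal340 D n φ₀ δ v J →
      J = locInt305 (L.μv v) (L.βv v) (f₀ v) (locG305 v γ)

/-- **LEAF Q2.7.13.3 = LOC-EQ-SPLIT over `ℚ` (local; split place).**  Mirror of
`H340.LocEqSplitC340` (`l = 2`: two places `w_0, w_1` over `v`).
Proof.  As `LocEqSplitC340`: `δ_0 δ_1 = γ_v`; Fubini and the split integral identity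
(`T6.SplitInt2C`; helper159 `iterL_eq159`, helper584 `iterInt_eq_rconv584`, helper855
`isConvProd_chain855`): the integral over `y_1` is `(φ_0 * φ_1)(y_0⁻¹ γ_v y_0)` for the measure
`L.μv v`; `LocHypQ298.split`: it is `f₀_v(y_0⁻¹ γ_v y_0)`. -/
def LocEqSplitQC514 : Prop :=
  T6.T6Out → IsImagQuad F →
  ∀ D : CompData ℚ F, IsCompData D → IsCycExt ℚ F D.l → D.l = 2 →
    ∀ (μr : @Measure (GL (Fin 2) ℝ) (borel _)) (μc : @Measure (GL (Fin 2) ℂ) (borel _))
      (S : Finset (HeightOneSpectrum (𝓞 ℚ)))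
      (n : HeightOneSpectrum (𝓞 F) → ℕ) (m : HeightOneSpectrum (𝓞 ℚ) → ℕ)
      (φ₀ : ∀ w : HeightOneSpectrum (𝓞 F), GL (Fin 2) (w.adicCompletion F) → ℂ)
      (Φ : InfinitePlace F → GL (Fin 2) ℂ → ℂ)
      (f₀ : ∀ v : HeightOneSpectrum (𝓞 ℚ), GL (Fin 2) (v.adicCompletion ℚ) → ℂ)
      (F0 F1 : GL (Fin 2) ℝ → ℂ),
      LocHypQ298 D μr μc S n m φ₀ Φ f₀ F0 F1 →
    ∀ (δ : GL (Fin 2) F) (γ : GL (Fin 2) ℚ), T6.IsEll γ →
      D.s.normUpTo D.l δ = Matrix.GeneralLinearGroup.map (algebraMap ℚ F) γ →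
    ∀ L : LocDataQ298 γ, IsLocDataQ298 m L →
    ∀ v ∈ S, ∀ J : ℂ, IsSplitValQ514 D φ₀ δ L v J →
      J = locInt305 (L.μv v) (L.βv v) (f₀ v) (locG305 v γ)

/-- **LEAF Q2.7.13.4 = LOC-EQ-ARCH over `ℚ` (local; the infinite place).**  The local twisted
integral upstairs for the index `j` of the ray is the local integral downstairs for the index
`j`, for the archimedean component `F0 + F1`.
Proof.  `γ' = (γ r^j)_∞ = t^j γ_∞` (`T5.IsRayGen` for `D.R.r`: `IsCompData.frame`; `t > 0`,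
`t² = 2`): regular (`γ` elliptic), with the centraliser of `γ_∞` (equality of subgroups of
`GL₂(ℝ)`: transport `L.μtr`, the two integral conditions do not change).
`δ' = (δ r'^j)_w = t'^j δ_w` (`IsCompData.frame'`, `t'⁴ = 2`, `t'² = t`):
`T6.twNorm conj 2 δ' = δ' conj(δ') = t^j (δ σ(δ))_w = t^j (γ)_w = (γ')_ℂ`
(`w ∘ σ = conj ∘ w` on `F`: `σ ≠ 1` by `IsCycExt`, `F` has two embeddings; the component at `w`
of `T5.ratG` is the embedding).  FIRST clause of `T6.IsArchMatch μr μc (Φ w) (F0 + F1)`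
(`LocHypQ298.arch w`) for `γ'`, the transported measure, `β = L.βr` (`IsLocDataQ298.cutr`), `δ'`
and `β'` of `IsArchValQ514`. -/
def LocEqArchQC514 : Prop :=
  IsImagQuad F →
  ∀ D : CompData ℚ F, IsCompData D → IsCycExt ℚ F D.l → D.l = 2 →
    ∀ ι : Adl ℚ →+* Adl F, IsAdeleBase305 D.s D.l ι →
    ∀ μr : @Measure (GL (Fin 2) ℝ) (borel _), @Measure.IsHaarMeasure _ _ _ (borel _) μr →
    ∀ μc : @Measure (GL (Fin 2) ℂ) (borel _), @Measure.IsHaarMeasure _ _ _ (borel _) μc →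
    ∀ (S : Finset (HeightOneSpectrum (𝓞 ℚ)))
      (n : HeightOneSpectrum (𝓞 F) → ℕ) (m : HeightOneSpectrum (𝓞 ℚ) → ℕ)
      (φ₀ : ∀ w : HeightOneSpectrum (𝓞 F), GL (Fin 2) (w.adicCompletion F) → ℂ)
      (Φ : InfinitePlace F → GL (Fin 2) ℂ → ℂ)
      (f₀ : ∀ v : HeightOneSpectrum (𝓞 ℚ), GL (Fin 2) (v.adicCompletion ℚ) → ℂ)
      (F0 F1 : GL (Fin 2) ℝ → ℂ),
      LocHypQ298 D μr μc S n m φ₀ Φ f₀ F0 F1 →
    ∀ (δ : GL (Fin 2) F) (γ : GL (Fin 2) ℚ), T6.IsEll γ →
      D.s.normUpTo D.l δ = Matrix.GeneralLinearGroup.map (algebraMap ℚ F) γ →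
    ∀ L : LocDataQ298 γ, IsLocDataQ298 m L →
    ∀ (j : ℤ) (J : ℂ), IsArchValQ514 D Φ δ L μc j J →
      J = locInt305 μr L.βr (fun g => F0 g + F1 g) (reGLQ298 (T5.ratG γ * D.R.r ^ j))

end Leaves

/-! ## Appendix: the equation lemmas of the definitions are realised HERE -/

theorem eqns_realisedFUQ514 : True := by
  have _a1 := @IsSplitValQ514.eq_1
  have _a2 := @IsSplitValQ514.eq_def
  have _a3 := @IsSplitValQ514.eq_unfold
  have _b1 := @IsArchValQ514.eq_1
  have _b2 := @IsArchValQ514.eq_def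
  have _b3 := @IsArchValQ514.eq_unfold
  have _c1 := @UpFactQC514.eq_1
  have _c2 := @UpFactQC514.eq_def
  have _c3 := @UpFactQC514.eq_unfold
  have _d1 := @LocEqInertQC514.eq_1
  have _d2 := @LocEqInertQC514.eq_def
  have _d3 := @LocEqInertQC514.eq_unfold
  have _e1 := @LocEqSplitQC514.eq_1
  have _e2 := @LocEqSplitQC514.eq_def
  have _e3 := @LocEqSplitQC514.eq_unfold
  have _f1 := @LocEqArchQC514.eq_1
  have _f2 := @LocEqArchQC514.eq_def
  have _f3 := @LocEqArchQC514.eq_unfold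
  trivial

end Fermat.Agent.LT.T7.FUQ514

end
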