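import Mathlib
import Fermat.Agent.LT.T7.H514.FactUpQSpec

/-!
# Row LT, tower T7, node Q2.7.13 `MQ298.FactUpQC298` (registry row 2676, helper514):
# THE CUT over `ℚ` in CORE FORM (independent of the form of the local hypotheses) -- Spec

OFF-MAIN.  Definitions and frozen Props only (the proved tops are `FactUpQCoreTop.lean`).  No
hole, nothing assumed.  ADDITIVE (new names only, suffix `514`, namespace
`Fermat.Agent.LT.T7.FUQ514`); `FactUpQSpec.lean` / `FactUpQTop.lean` (v1) are unchanged.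

## Why

The split clause of `H305.LocHyp305` / `MQ298.LocHypQ298` (ALL enumerations of the places over a
split place) is unsatisfiable at the bad split places (FAIL #18179, helper893 v2 `LocHyp893`,
helper801 `LocHypQb801`, helper311, helper467): the chain is being re-based on local hypotheses
with ONE enumeration.  The cut below does not mention any structure of local hypotheses:

* the NODE `UpFactQCore514 F` (global → local upstairs, no matching) takes the invariance of the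
  components upstairs, the regularity of `Φ` and, at every place of `S` with two places over it,
  AN enumeration with equal levels and the convolution identity (`SplitClauseQ514`), and returns
  the split values FOR SUCH AN ENUMERATION (`IsSplitValQB514`, mirror of helper311
  `IsSplitValB311`);
* the LEAVES `LocEqInertQL514 F`, `LocEqSplitQL514 F`, `LocEqArchQL514 F` are LOCAL: their only
  matching hypothesis is the clause at the place (`InertClauseQ514`, the convolution identity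
  inside `IsSplitValQB514`, `T6.IsArchMatch`);
* `FactUpQCore514 F` = the factorisation upstairs with the clauses as hypotheses.

    factUpQCore_of514   : UpFactQCore514 F → LocEqInertQL514 F → LocEqSplitQL514 F
                            → LocEqArchQL514 F → FactUpQCore514 F
    factUpQC298_of_core514 : FactUpQCore514 F → SplitEnumExQC514 F → MQ298.FactUpQC298 F
    locEq*QC514_of_L514 : the local leaves give the leaves of v1 (`FactUpQSpec.lean`)

For `h : LocHypQb801 …` (helper801) or any other one-enumeration form the hypotheses of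
`FactUpQCore514` are `h.inv_up`, `h.inv_down`, `h.arch_up`, `h.inert`, `h.split`, `h.arch`.

FALSITY CHECKS (helper514).  As in `FactUpQSpec.lean`; moreover: (1) the node needs AN
enumeration at a split place, any enumeration in the order of the orbit works (the twisted
integral at a split place is the split integral in the coordinates of ANY enumeration with
`w j = σ (w (j+1))`); (2) at a place `v ∈ S` with ONE place over it `SplitClauseQ514` is not
asked (hypothesis "two places over `v`"), the value is `IsInertVal340`; (3) `l = 2`: every place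
of `ℚ` has one or two places of `F` over it.
-/

set_option autoImplicit false

open AutomorphicForm IsDedekindDomain NumberField MeasureTheory
open scoped ComplexConjugate

noncomputable section

namespace Fermat.Agent.LT.T7.FUQ514

open Fermat.Agent.LT.H556 Fermat.Agent.LT.H556.A0 Fermat.Agent.LT.T7 Fermat.Agent.LT.T7.H305
open Fermat.Agent.LT.T7.MQ298 Fermat.Agent.LT.T7.H340

attribute [local instance] Fermat.Agent.LT.T5.instMeasurableSpaceG

/-! ## 1. The clauses at one place, the split value for an enumeration with the identity -/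

section Defs

variable {F : Type} [Field F] [NumberField F]

/-- THE INERT CLAUSE at the place `v` (the clause `inert` of `MQ298.LocHypQ298`, VERBATIM, for
one `v`). -/
def InertClauseQ514 (D : CompData ℚ F)
    (n : HeightOneSpectrum (𝓞 F) → ℕ) (m : HeightOneSpectrum (𝓞 ℚ) → ℕ)
    (φ₀ : ∀ w : HeightOneSpectrum (𝓞 F), GL (Fin 2) (w.adicCompletion F) → ℂ)
    (f₀ : ∀ v : HeightOneSpectrum (𝓞 ℚ), GL (Fin 2) (v.adicCompletion ℚ) → ℂ)
    (v : HeightOneSpectrum (𝓞 ℚ)) : Prop :=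
  ∀ w : HeightOneSpectrum (𝓞 F), PlaceOver ℚ F v w →
    (∀ w' : HeightOneSpectrum (𝓞 F), PlaceOver ℚ F v w' → w' = w) →
    ∀ (e : ℕ) (i : v.adicCompletion ℚ →+* w.adicCompletion F)
      (sw : w.adicCompletion F ≃+* w.adicCompletion F),
      (∀ x : ℚ, i (algebraMap ℚ (v.adicCompletion ℚ) x)
        = algebraMap F (w.adicCompletion F) (algebraMap ℚ F x)) →
      (∀ y : F, sw (algebraMap F (w.adicCompletion F) y)
        = algebraMap F (w.adicCompletion F) (D.s.σ y)) →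
      T6.IsLocalExt (v.adicCompletion ℚ) (w.adicCompletion F) D.l e i sw →
      (∀ (δ : GL (Fin 2) (w.adicCompletion F)) (γ : GL (Fin 2) (v.adicCompletion ℚ))
          (c c' : ℂ), T6.IsReg γ →
          IsConj (T6.twNorm sw D.l δ) (Matrix.GeneralLinearGroup.map i γ) →
          T6.IsTwOrbSum sw (n w) (φ₀ w) δ c → T6.IsOrbSum (m v) (f₀ v) γ c' → c = c') ∧
        ∀ (γ : GL (Fin 2) (v.adicCompletion ℚ)) (c' : ℂ), T6.IsReg γ →
          ¬ T6.IsNormFrom D.l i sw γ → T6.IsOrbSum (m v) (f₀ v) γ c' → c' = 0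

/-- THE SPLIT CLAUSE at the place `v`, ONE enumeration (the conclusion of the clause `split` of
helper893 `LocHyp893` / helper801 `LocHypQb801`, VERBATIM, for one `v`). -/
def SplitClauseQ514 (D : CompData ℚ F)
    (n : HeightOneSpectrum (𝓞 F) → ℕ) (m : HeightOneSpectrum (𝓞 ℚ) → ℕ)
    (φ₀ : ∀ w : HeightOneSpectrum (𝓞 F), GL (Fin 2) (w.adicCompletion F) → ℂ)
    (f₀ : ∀ v : HeightOneSpectrum (𝓞 ℚ), GL (Fin 2) (v.adicCompletion ℚ) → ℂ)
    (v : HeightOneSpectrum (𝓞 ℚ)) : Prop :=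
  ∃ (w : ℕ → HeightOneSpectrum (𝓞 F))
    (i : ∀ j : ℕ, v.adicCompletion ℚ ≃+* (w j).adicCompletion F),
    (∀ j : ℕ, PlaceOver ℚ F v (w j)) ∧ (∀ j : ℕ, T5.PlaceRel D.s (w (j + 1)) (w j)) ∧
    (∀ j : ℕ, 0 < j → j < D.l → w j ≠ w 0) ∧
    (∀ (j : ℕ) (x : ℚ), i j (algebraMap ℚ (v.adicCompletion ℚ) x)
      = algebraMap F ((w j).adicCompletion F) (algebraMap ℚ F x)) ∧
    (∀ (j : ℕ) (x : v.adicCompletion ℚ), Valued.v (i j x) = Valued.v x) ∧
    (∀ j : ℕ, n (w j) = m v) ∧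
      T6.IsConvProd (T6.InU (m v)) D.l
        (fun j g => φ₀ (w j)
          (Matrix.GeneralLinearGroup.map ((i j : v.adicCompletion ℚ ≃+* _) :
            v.adicCompletion ℚ →+* (w j).adicCompletion F) g))
        (f₀ v)

/-- `J` is THE LOCAL TWISTED INTEGRAL UPSTAIRS at the SPLIT place `v` of `ℚ` for an enumeration
of the places over `v` FOR WHICH the levels agree and the convolution identity
`f₀ v = φ₀ (w 0) * φ₀ (w 1)` holds (mirror over `ℚ` of helper311 `IsSplitValB311`). -/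
def IsSplitValQB514 (D : CompData ℚ F)
    (n : HeightOneSpectrum (𝓞 F) → ℕ) (m : HeightOneSpectrum (𝓞 ℚ) → ℕ)
    (φ₀ : ∀ w : HeightOneSpectrum (𝓞 F), GL (Fin 2) (w.adicCompletion F) → ℂ)
    (f₀ : ∀ v : HeightOneSpectrum (𝓞 ℚ), GL (Fin 2) (v.adicCompletion ℚ) → ℂ)
    (δ : GL (Fin 2) F) {γ : GL (Fin 2) ℚ} (L : LocDataQ298 γ)
    (v : HeightOneSpectrum (𝓞 ℚ)) (J : ℂ) : Prop :=
  ∃ (hl : 0 < D.l) (w : ℕ → HeightOneSpectrum (𝓞 F))
    (i : ∀ j : ℕ, v.adicCompletion ℚ ≃+* (w j).adicCompletion F),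
    (∀ j : ℕ, PlaceOver ℚ F v (w j)) ∧
    (∀ j : ℕ, T5.PlaceRel D.s (w (j + 1)) (w j)) ∧
    (∀ j : ℕ, 0 < j → j < D.l → w j ≠ w 0) ∧
    (∀ (j : ℕ) (x : ℚ), i j (algebraMap ℚ (v.adicCompletion ℚ) x)
      = algebraMap F ((w j).adicCompletion F) (algebraMap ℚ F x)) ∧
    (∀ (j : ℕ) (x : v.adicCompletion ℚ), Valued.v (i j x) = Valued.v x) ∧
    (∀ j : ℕ, n (w j) = m v) ∧
    T6.IsConvProd (T6.InU (m v)) D.l
      (fun j g => φ₀ (w j)
        (Matrix.GeneralLinearGroup.map ((i j : v.adicCompletion ℚ ≃+* _) :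
          v.adicCompletion ℚ →+* (w j).adicCompletion F) g))
      (f₀ v) ∧
    J = splitInt340 D.l hl (L.μv v) (L.βv v)
        (fun j g => φ₀ (w j)
          (Matrix.GeneralLinearGroup.map ((i j : v.adicCompletion ℚ ≃+* _) :
            v.adicCompletion ℚ →+* (w j).adicCompletion F) g))
        (fun j => Matrix.GeneralLinearGroup.map
          (((i j).symm : (w j).adicCompletion F ≃+* _) :
            (w j).adicCompletion F →+* v.adicCompletion ℚ) (locG305 (w j) δ))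

end Defs

/-! ## 2. The node and the leaves, core form -/

section Leaves

variable (F : Type) [Field F] [NumberField F]

/-- **NODE Q2.7.13.1c = UP-FACT over `ℚ`, CORE FORM (global → local upstairs, NO matching).**
`UpFactQC514` with the hypotheses which the proof uses: the components upstairs at the places
over `S` are bi-invariant with finite support modulo `U(n)`, the `Φ w` are continuous with
compact support, at every place of `S` with two places over it there is an enumeration with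
equal levels and the convolution identity (only passed on to `IsSplitValQB514`).
Proof.  As `H340.UpFactC340` / `UpFactQC514` (see there); at a split place take THE enumeration
of the hypothesis. -/
def UpFactQCore514 : Prop :=
  T6.T6Out → IsImagQuad F →
  ∀ D : CompData ℚ F, IsCompData D → IsCycExt ℚ F D.l → D.l = 2 →
    ∀ ι : Adl ℚ →+* Adl F, IsAdeleBase305 D.s D.l ι →
    ∀ μc : @Measure (GL (Fin 2) ℂ) (borel _), @Measure.IsHaarMeasure _ _ _ (borel _) μc →
    ∀ (T₀ : Finset (HeightOneSpectrum (𝓞 ℚ))), UnramOut305 (K' := F) T₀ →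
    ∀ (n : HeightOneSpectrum (𝓞 F) → ℕ) (m : HeightOneSpectrum (𝓞 ℚ) → ℕ),
      IsLevelAt305 T₀ n m →
    ∃ cG' : ℝ, 0 < cG' ∧
      ∀ (S : Finset (HeightOneSpectrum (𝓞 ℚ))) (S' : Finset (HeightOneSpectrum (𝓞 F))),
        T₀ ⊆ S → IsOver305 S S' →
      ∀ (φ₀ : ∀ w : HeightOneSpectrum (𝓞 F), GL (Fin 2) (w.adicCompletion F) → ℂ)
        (Φ : InfinitePlace F → GL (Fin 2) ℂ → ℂ)
        (f₀ : ∀ v : HeightOneSpectrum (𝓞 ℚ), GL (Fin 2) (v.adicCompletion ℚ) → ℂ),
        (∀ v ∈ S, ∀ w : HeightOneSpectrum (𝓞 F), PlaceOver ℚ F v w →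
          T6.IsBiInv (T6.InU (n w)) (φ₀ w) ∧ T6.HasFinSupp (T6.InU (n w)) (φ₀ w)) →
        (∀ w : InfinitePlace F, Continuous (Φ w) ∧ HasCompactSupport (Φ w)) →
        (∀ v ∈ S, (∃ w₁ w₂ : HeightOneSpectrum (𝓞 F),
            PlaceOver ℚ F v w₁ ∧ PlaceOver ℚ F v w₂ ∧ w₁ ≠ w₂) →
          SplitClauseQ514 D n m φ₀ f₀ v) →
      ∀ (δ : GL (Fin 2) F) (γ : GL (Fin 2) ℚ), T6.IsEll γ →
        D.s.normUpTo D.l δ = Matrix.GeneralLinearGroup.map (algebraMap ℚ F) γ →
        GoodOut305 S γ → IntOut305 S' δ →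
      ∀ (μT : @Measure (tA305 (T5.AdelicAut.id ℚ) γ) (borel _))
        (μT' : @Measure (tA305 D.s δ) (borel _)),
        @Measure.IsHaarMeasure _ _ _ (borel _) μT →
        @Measure.IsHaarMeasure _ _ _ (borel _) μT' →
        IsTorLinked305 ι D.s δ γ μT μT' →
      ∀ (L : LocDataQ298 γ) (cT : ℝ), IsLocDataQ298 m L → 0 < cT → IsTorConstQ298 γ μT L cT →
        ∃ (β' : G F → ℝ) (J : HeightOneSpectrum (𝓞 ℚ) → ℂ) (Jc : ℤ → ℂ),
          IsCutOn305 D.s δ μT' β'
              {x | T5.twTerm D.R'.r D.s (pure305 S' φ₀ Φ) δ x ≠ 0} ∧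
            cutInt305 D.R'.r D.s (pure305 S' φ₀ Φ) δ D.R'.μ β'
              = ((cG' / cT : ℝ) : ℂ) * ∑' j : ℤ, (∏ v ∈ S, J v) * Jc j ∧
            (∀ v ∈ S, IsInertVal340 D n φ₀ δ v (J v) ∨
              IsSplitValQB514 D n m φ₀ f₀ δ L v (J v)) ∧
            ∀ j : ℤ, IsArchValQ514 D Φ δ L μc j (Jc j)

/-- **LEAF Q2.7.13.2c = LOC-EQ-INERT over `ℚ`, LOCAL FORM.**  The proof of
`H340.LocEqInertC340` (helper555) with the inert clause at `v` as hypothesis. -/
def LocEqInertQL514 : Prop :=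
  T6.T6Out → IsImagQuad F →
  ∀ D : CompData ℚ F, IsCompData D → IsCycExt ℚ F D.l → D.l = 2 →
    ∀ (n : HeightOneSpectrum (𝓞 F) → ℕ) (m : HeightOneSpectrum (𝓞 ℚ) → ℕ)
      (φ₀ : ∀ w : HeightOneSpectrum (𝓞 F), GL (Fin 2) (w.adicCompletion F) → ℂ)
      (f₀ : ∀ v : HeightOneSpectrum (𝓞 ℚ), GL (Fin 2) (v.adicCompletion ℚ) → ℂ),
    ∀ (δ : GL (Fin 2) F) (γ : GL (Fin 2) ℚ), T6.IsEll γ →
      D.s.normUpTo D.l δ = Matrix.GeneralLinearGroup.map (algebraMap ℚ F) γ →
    ∀ L : LocDataQ298 γ, IsLocDataQ298 m L →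
    ∀ v : HeightOneSpectrum (𝓞 ℚ),
      (T6.IsBiInv (T6.InU (m v)) (f₀ v) ∧ T6.HasFinSupp (T6.InU (m v)) (f₀ v)) →
      (∀ w : HeightOneSpectrum (𝓞 F), PlaceOver ℚ F v w →
        T6.IsBiInv (T6.InU (n w)) (φ₀ w) ∧ T6.HasFinSupp (T6.InU (n w)) (φ₀ w)) →
      InertClauseQ514 D n m φ₀ f₀ v →
    ∀ J : ℂ, IsInertVal340 D n φ₀ δ v J →
      J = locInt305 (L.μv v) (L.βv v) (f₀ v) (locG305 v γ)

/-- **LEAF Q2.7.13.3c = LOC-EQ-SPLIT over `ℚ`, LOCAL FORM** (mirror over `ℚ` of helper311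
`LocEqSplitC311`, `l = 2`).  The convolution identity is part of `IsSplitValQB514`. -/
def LocEqSplitQL514 : Prop :=
  T6.T6Out → IsImagQuad F →
  ∀ D : CompData ℚ F, IsCompData D → IsCycExt ℚ F D.l → D.l = 2 →
    ∀ (n : HeightOneSpectrum (𝓞 F) → ℕ) (m : HeightOneSpectrum (𝓞 ℚ) → ℕ)
      (φ₀ : ∀ w : HeightOneSpectrum (𝓞 F), GL (Fin 2) (w.adicCompletion F) → ℂ)
      (f₀ : ∀ v : HeightOneSpectrum (𝓞 ℚ), GL (Fin 2) (v.adicCompletion ℚ) → ℂ),
    ∀ (δ : GL (Fin 2) F) (γ : GL (Fin 2) ℚ), T6.IsEll γ →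
      D.s.normUpTo D.l δ = Matrix.GeneralLinearGroup.map (algebraMap ℚ F) γ →
    ∀ L : LocDataQ298 γ, IsLocDataQ298 m L →
    ∀ v : HeightOneSpectrum (𝓞 ℚ),
      (T6.IsBiInv (T6.InU (m v)) (f₀ v) ∧ T6.HasFinSupp (T6.InU (m v)) (f₀ v)) →
      (∀ w : HeightOneSpectrum (𝓞 F), PlaceOver ℚ F v w →
        T6.IsBiInv (T6.InU (n w)) (φ₀ w) ∧ T6.HasFinSupp (T6.InU (n w)) (φ₀ w)) →
    ∀ J : ℂ, IsSplitValQB514 D n m φ₀ f₀ δ L v J →
      J = locInt305 (L.μv v) (L.βv v) (f₀ v) (locG305 v γ)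

/-- **LEAF Q2.7.13.4c = LOC-EQ-ARCH over `ℚ`, LOCAL FORM.**  `Fr` any function on `GL₂(ℝ)` which
is matched with the `Φ w` (`T6.IsArchMatch`; in the application `Fr = F0 + F1`).  Proof: see
`LocEqArchQC514`. -/
def LocEqArchQL514 : Prop :=
  IsImagQuad F →
  ∀ D : CompData ℚ F, IsCompData D → IsCycExt ℚ F D.l → D.l = 2 →
    ∀ ι : Adl ℚ →+* Adl F, IsAdeleBase305 D.s D.l ι →
    ∀ μr : @Measure (GL (Fin 2) ℝ) (borel _), @Measure.IsHaarMeasure _ _ _ (borel _) μr →
    ∀ μc : @Measure (GL (Fin 2) ℂ) (borel _), @Measure.IsHaarMeasure _ _ _ (borel _) μc →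
    ∀ (Φ : InfinitePlace F → GL (Fin 2) ℂ → ℂ) (Fr : GL (Fin 2) ℝ → ℂ),
      (∀ w : InfinitePlace F, T6.IsArchMatch μr μc (Φ w) Fr) →
    ∀ (δ : GL (Fin 2) F) (γ : GL (Fin 2) ℚ), T6.IsEll γ →
      D.s.normUpTo D.l δ = Matrix.GeneralLinearGroup.map (algebraMap ℚ F) γ →
    ∀ (m : HeightOneSpectrum (𝓞 ℚ) → ℕ) (L : LocDataQ298 γ), IsLocDataQ298 m L →
    ∀ (j : ℤ) (J : ℂ), IsArchValQ514 D Φ δ L μc j J →
      J = locInt305 μr L.βr Fr (reGLQ298 (T5.ratG γ * D.R.r ^ j))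

/-- **LEAF Q2.7.13.5 = SPLIT-ENUM-EX** (only for the form v1 with `MQ298.LocHypQ298`): a place
of `ℚ` with two places of `F` over it has an enumeration of the places over it in the order of
the orbit with identifications of the completions.
Proof.  `T6.InstSplitC` (in `T6Out`); `l = 2`: `w 0 = w₁`, `w 1 = σ⁻¹`-image, periodic. -/
def SplitEnumExQC514 : Prop :=
  T6.T6Out → IsImagQuad F →
  ∀ D : CompData ℚ F, IsCompData D → IsCycExt ℚ F D.l → D.l = 2 →
    ∀ v : HeightOneSpectrum (𝓞 ℚ),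
      (∃ w₁ w₂ : HeightOneSpectrum (𝓞 F),
        PlaceOver ℚ F v w₁ ∧ PlaceOver ℚ F v w₂ ∧ w₁ ≠ w₂) →
      ∃ (w : ℕ → HeightOneSpectrum (𝓞 F))
        (i : ∀ j : ℕ, v.adicCompletion ℚ ≃+* (w j).adicCompletion F),
        (∀ j : ℕ, PlaceOver ℚ F v (w j)) ∧ (∀ j : ℕ, T5.PlaceRel D.s (w (j + 1)) (w j)) ∧
        (∀ j : ℕ, 0 < j → j < D.l → w j ≠ w 0) ∧
        (∀ (j : ℕ) (x : ℚ), i j (algebraMap ℚ (v.adicCompletion ℚ) x)
          = algebraMap F ((w j).adicCompletion F) (algebraMap ℚ F x)) ∧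
        (∀ (j : ℕ) (x : v.adicCompletion ℚ), Valued.v (i j x) = Valued.v x)

/-- **THE NODE Q2.7.13 IN CORE FORM**: the factorisation upstairs with local matching, the
clauses of the local hypotheses being hypotheses (ONE enumeration at the split places). -/
def FactUpQCore514 : Prop :=
  T6.T6Out → IsImagQuad F →
  ∀ D : CompData ℚ F, IsCompData D → IsCycExt ℚ F D.l → D.l = 2 →
    ∀ ι : Adl ℚ →+* Adl F, IsAdeleBase305 D.s D.l ι →
    ∀ μr : @Measure (GL (Fin 2) ℝ) (borel _), @Measure.IsHaarMeasure _ _ _ (borel _) μr →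
    ∀ μc : @Measure (GL (Fin 2) ℂ) (borel _), @Measure.IsHaarMeasure _ _ _ (borel _) μc →
    ∀ (T₀ : Finset (HeightOneSpectrum (𝓞 ℚ))), UnramOut305 (K' := F) T₀ →
    ∀ (n : HeightOneSpectrum (𝓞 F) → ℕ) (m : HeightOneSpectrum (𝓞 ℚ) → ℕ),
      IsLevelAt305 T₀ n m →
    ∃ cG' : ℝ, 0 < cG' ∧
      ∀ (S : Finset (HeightOneSpectrum (𝓞 ℚ))) (S' : Finset (HeightOneSpectrum (𝓞 F))),
        T₀ ⊆ S → IsOver305 S S' →
      ∀ (φ₀ : ∀ w : HeightOneSpectrum (𝓞 F), GL (Fin 2) (w.adicCompletion F) → ℂ)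
        (Φ : InfinitePlace F → GL (Fin 2) ℂ → ℂ)
        (f₀ : ∀ v : HeightOneSpectrum (𝓞 ℚ), GL (Fin 2) (v.adicCompletion ℚ) → ℂ)
        (Fr : GL (Fin 2) ℝ → ℂ),
        (∀ v ∈ S, ∀ w : HeightOneSpectrum (𝓞 F), PlaceOver ℚ F v w →
          T6.IsBiInv (T6.InU (n w)) (φ₀ w) ∧ T6.HasFinSupp (T6.InU (n w)) (φ₀ w)) →
        (∀ v ∈ S, T6.IsBiInv (T6.InU (m v)) (f₀ v) ∧ T6.HasFinSupp (T6.InU (m v)) (f₀ v)) →
        (∀ w : InfinitePlace F, Continuous (Φ w) ∧ HasCompactSupport (Φ w)) →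
        (∀ v ∈ S, InertClauseQ514 D n m φ₀ f₀ v) →
        (∀ v ∈ S, (∃ w₁ w₂ : HeightOneSpectrum (𝓞 F),
            PlaceOver ℚ F v w₁ ∧ PlaceOver ℚ F v w₂ ∧ w₁ ≠ w₂) →
          SplitClauseQ514 D n m φ₀ f₀ v) →
        (∀ w : InfinitePlace F, T6.IsArchMatch μr μc (Φ w) Fr) →
      ∀ (δ : GL (Fin 2) F) (γ : GL (Fin 2) ℚ), T6.IsEll γ →
        D.s.normUpTo D.l δ = Matrix.GeneralLinearGroup.map (algebraMap ℚ F) γ →
        GoodOut305 S γ → IntOut305 S' δ →
      ∀ (μT : @Measure (tA305 (T5.AdelicAut.id ℚ) γ) (borel _))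
        (μT' : @Measure (tA305 D.s δ) (borel _)),
        @Measure.IsHaarMeasure _ _ _ (borel _) μT →
        @Measure.IsHaarMeasure _ _ _ (borel _) μT' →
        IsTorLinked305 ι D.s δ γ μT μT' →
      ∀ (L : LocDataQ298 γ) (cT : ℝ), IsLocDataQ298 m L → 0 < cT → IsTorConstQ298 γ μT L cT →
        ∃ β' : G F → ℝ,
          IsCutOn305 D.s δ μT' β'
              {x | T5.twTerm D.R'.r D.s (pure305 S' φ₀ Φ) δ x ≠ 0} ∧
            cutInt305 D.R'.r D.s (pure305 S' φ₀ Φ) δ D.R'.μ β'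
              = ((cG' / cT : ℝ) : ℂ) * factValQ298 D.R.r S L f₀ μr Fr

end Leaves

/-! ## Appendix: the equation lemmas of the definitions are realised HERE -/

theorem eqns_realisedFUQCore514 : True := by
  have _a1 := @InertClauseQ514.eq_1
  have _a2 := @InertClauseQ514.eq_def
  have _a3 := @InertClauseQ514.eq_unfold
  have _b1 := @SplitClauseQ514.eq_1
  have _b2 := @SplitClauseQ514.eq_def
  have _b3 := @SplitClauseQ514.eq_unfold
  have _c1 := @IsSplitValQB514.eq_1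
  have _c2 := @IsSplitValQB514.eq_def
  have _c3 := @IsSplitValQB514.eq_unfold
  have _d1 := @UpFactQCore514.eq_1
  have _d2 := @UpFactQCore514.eq_def
  have _d3 := @UpFactQCore514.eq_unfold
  have _e1 := @LocEqInertQL514.eq_1
  have _e2 := @LocEqInertQL514.eq_def
  have _e3 := @LocEqInertQL514.eq_unfold
  have _f1 := @LocEqSplitQL514.eq_1
  have _f2 := @LocEqSplitQL514.eq_def
  have _f3 := @LocEqSplitQL514.eq_unfold
  have _g1 := @LocEqArchQL514.eq_1
  have _g2 := @LocEqArchQL514.eq_def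
  have _g3 := @LocEqArchQL514.eq_unfold
  have _h1 := @SplitEnumExQC514.eq_1
  have _h2 := @SplitEnumExQC514.eq_def
  have _h3 := @SplitEnumExQC514.eq_unfold
  have _i1 := @FactUpQCore514.eq_1
  have _i2 := @FactUpQCore514.eq_def
  have _i3 := @FactUpQCore514.eq_unfold
  trivial

end Fermat.Agent.LT.T7.FUQ514

end
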