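import Mathlib
import Fermat.Agent.LT.T7.H514.FactUpQCore

/-!
# Row LT, tower T7, node Q2.7.13 `MQ298.FactUpQC298` (registry row 2676, helper514):
# THE CUT over `ℚ` in CORE FORM -- proved tops

OFF-MAIN.  No hole, nothing assumed.

    factUpQCore_of514      : UpFactQCore514 F → LocEqInertQL514 F → LocEqSplitQL514 F
                               → LocEqArchQL514 F → FactUpQCore514 F
    factUpQC298_of_core514 : FactUpQCore514 F → SplitEnumExQC514 F → MQ298.FactUpQC298 F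
    factUpQC298_of_leaves514 : the five → MQ298.FactUpQC298 F                  (VERBATIM)
    locEqInertQC_of_L514, locEqSplitQC_of_L514, locEqArchQC_of_L514 : local leaf → leaf of v1
-/

set_option autoImplicit false

open AutomorphicForm IsDedekindDomain NumberField MeasureTheory
open scoped ComplexConjugate

noncomputable section

namespace Fermat.Agent.LT.T7.FUQ514

open Fermat.Agent.LT.H556 Fermat.Agent.LT.H556.A0 Fermat.Agent.LT.T7 Fermat.Agent.LT.T7.H305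
open Fermat.Agent.LT.T7.MQ298 Fermat.Agent.LT.T7.H340

attribute [local instance] Fermat.Agent.LT.T5.instMeasurableSpaceG

variable {F : Type} [Field F] [NumberField F]

/-- **THE TOP OF THE CUT IN CORE FORM.** -/
theorem factUpQCore_of514 (hU : UpFactQCore514 F) (hI : LocEqInertQL514 F)
    (hS : LocEqSplitQL514 F) (hA : LocEqArchQL514 F) : FactUpQCore514 F := by
  intro hT6 hF D hD hcyc hl ι hι μr hμr μc hμc T₀ hT₀ n m hlev
  obtain ⟨cG', hcG', hfact⟩ := hU hT6 hF D hD hcyc hl ι hι μc hμc T₀ hT₀ n m hlev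
  refine ⟨cG', hcG', ?_⟩
  intro S S' hTS hSS' φ₀ Φ f₀ Fr hup hdown hΦ hin hsp har δ γ hγ hN hgood hint μT μT' hμT hμT'
    hlink L cT hL hcT hTor
  obtain ⟨β', J, Jc, hcut, hval, hJ, hJc⟩ :=
    hfact S S' hTS hSS' φ₀ Φ f₀ hup hΦ hsp δ γ hγ hN hgood hint μT μT' hμT hμT' hlink L cT hL
      hcT hTor
  refine ⟨β', hcut, ?_⟩
  rw [hval]
  congr 1
  show (∑' j : ℤ, (∏ v ∈ S, J v) * Jc j)
    = ∑' j : ℤ, (∏ v ∈ S, locInt305 (L.μv v) (L.βv v) (f₀ v) (locG305 v γ)) *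
        locInt305 μr L.βr Fr (reGLQ298 (T5.ratG γ * D.R.r ^ j))
  refine tsum_congr fun j => ?_
  congr 1
  · refine Finset.prod_congr rfl fun v hv => ?_
    rcases hJ v hv with h | h
    · exact hI hT6 hF D hD hcyc hl n m φ₀ f₀ δ γ hγ hN L hL v (hdown v hv) (hup v hv)
        (hin v hv) (J v) h
    · exact hS hT6 hF D hD hcyc hl n m φ₀ f₀ δ γ hγ hN L hL v (hdown v hv) (hup v hv) (J v) h
  · exact hA hF D hD hcyc hl ι hι μr hμr μc hμc Φ Fr har δ γ hγ hN m L hL j (Jc j) (hJc j)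

/-- **THE NODE OF helper298 (form v1, `LocHypQ298`) FROM THE CORE FORM.** -/
theorem factUpQC298_of_core514 (hC : FactUpQCore514 F) (hE : SplitEnumExQC514 F) :
    FactUpQC298 F := by
  intro hT6 hF D hD hcyc hl ι hι μr hμr μc hμc T₀ hT₀ n m hlev
  obtain ⟨cG', hcG', h⟩ := hC hT6 hF D hD hcyc hl ι hι μr hμr μc hμc T₀ hT₀ n m hlev
  refine ⟨cG', hcG', ?_⟩
  intro S S' hTS hSS' φ₀ Φ f₀ F0 F1 hloc δ γ hγ hN hgood hint μT μT' hμT hμT' hlink L cT hL hcT
    hTor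
  refine h S S' hTS hSS' φ₀ Φ f₀ (fun g => F0 g + F1 g) hloc.inv_up hloc.inv_down
    (fun w => ⟨(hloc.arch_up w).cont, (hloc.arch_up w).supp⟩) (fun v hv => hloc.inert v hv)
    (fun v hv h2 => ?_) hloc.arch δ γ hγ hN hgood hint μT μT' hμT hμT' hlink L cT hL hcT hTor
  obtain ⟨w, i, h1, h2', h3, h4, h5⟩ := hE hT6 hF D hD hcyc hl v h2
  have hs := hloc.split v hv w i h1 h2' h3 h4 h5
  exact ⟨w, i, h1, h2', h3, h4, h5, hs.1, hs.2⟩

/-- **THE NODE OF helper298 FROM THE FIVE.** -/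
theorem factUpQC298_of_leaves514 (hU : UpFactQCore514 F) (hI : LocEqInertQL514 F)
    (hS : LocEqSplitQL514 F) (hA : LocEqArchQL514 F) (hE : SplitEnumExQC514 F) :
    FactUpQC298 F :=
  factUpQC298_of_core514 (factUpQCore_of514 hU hI hS hA) hE

/-- The leaf LOC-EQ-INERT of v1 from the local form. -/
theorem locEqInertQC_of_L514 (h : LocEqInertQL514 F) : LocEqInertQC514 F := by
  intro hT6 hF D hD hcyc hl μr μc S n m φ₀ Φ f₀ F0 F1 hloc δ γ hγ hN L hL v hv J hJ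
  exact h hT6 hF D hD hcyc hl n m φ₀ f₀ δ γ hγ hN L hL v (hloc.inv_down v hv)
    (hloc.inv_up v hv) (hloc.inert v hv) J hJ

/-- The leaf LOC-EQ-SPLIT of v1 from the local form. -/
theorem locEqSplitQC_of_L514 (h : LocEqSplitQL514 F) : LocEqSplitQC514 F := by
  intro hT6 hF D hD hcyc hl μr μc S n m φ₀ Φ f₀ F0 F1 hloc δ γ hγ hN L hL v hv J hJ
  obtain ⟨hl0, w, i, h1, h2, h3, h4, h5, hJ'⟩ := hJ
  have hs := hloc.split v hv w i h1 h2 h3 h4 h5
  exact h hT6 hF D hD hcyc hl n m φ₀ f₀ δ γ hγ hN L hL v (hloc.inv_down v hv)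
    (hloc.inv_up v hv) J ⟨hl0, w, i, h1, h2, h3, h4, h5, hs.1, hs.2, hJ'⟩

/-- The leaf LOC-EQ-ARCH of v1 from the local form. -/
theorem locEqArchQC_of_L514 (h : LocEqArchQL514 F) : LocEqArchQC514 F := by
  intro hF D hD hcyc hl ι hι μr hμr μc hμc S n m φ₀ Φ f₀ F0 F1 hloc δ γ hγ hN L hL j J hJ
  exact h hF D hD hcyc hl ι hι μr hμr μc hμc Φ (fun g => F0 g + F1 g) hloc.arch δ γ hγ hN m L
    hL j J hJ

/-- VERBATIM checks. -/
example : UpFactQCore514 F → LocEqInertQL514 F → LocEqSplitQL514 F → LocEqArchQL514 F →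
    SplitEnumExQC514 F → Fermat.Agent.LT.T7.MQ298.FactUpQC298 F := factUpQC298_of_leaves514

end Fermat.Agent.LT.T7.FUQ514

end
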