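import Mathlib
import Fermat.Agent.LT.T7.H514.FactUpQCoreTop
import Fermat.Agent.LT.T7.H298.MatchQCut2

/-!
# Row LT, tower T7, node Q2.7.13 v2 `MQ298.FactUpQC298b` (registry row 2676, helper514):
# THE NODE OF helper298, v2 (split clause for ONE enumeration), FROM THE CORE FORM

OFF-MAIN.  No hole, nothing assumed.  ADDITIVE (new names only, suffix `514`).

helper298 re-based the matching chain over `ℚ` on `LocHypQ298b` (`MatchQSpec2.lean`,
helper298@0dd88c71f); the node of the second cut is now `MQ298.FactUpQC298b F`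
(`MatchQCut2.lean`).  The core form of the cut (`FactUpQCore.lean`) has the clauses of the local
hypotheses as hypotheses, so the node v2 is the core form for `h.inv_up`, `h.inv_down`,
`h.arch_up`, `h.inert`, `h.split`, `h.arch`:

    factUpQC298b_of_core514   : FactUpQCore514 F → MQ298.FactUpQC298b F
    factUpQC298b_of_leaves514 : UpFactQCore514 F → LocEqInertQL514 F → LocEqSplitQL514 F
                                  → LocEqArchQL514 F → MQ298.FactUpQC298b F        (VERBATIM)

(no `SplitEnumExQC514` here: the enumeration is part of `LocHypQ298b.split`).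
-/

set_option autoImplicit false

open AutomorphicForm IsDedekindDomain NumberField MeasureTheory
open scoped ComplexConjugate

noncomputable section

namespace Fermat.Agent.LT.T7.FUQ514

open Fermat.Agent.LT.H556 Fermat.Agent.LT.H556.A0 Fermat.Agent.LT.T7 Fermat.Agent.LT.T7.H305
open Fermat.Agent.LT.T7.MQ298 Fermat.Agent.LT.T7.H340

attribute [local instance] Fermat.Agent.LT.T5.instMeasurableSpaceG

variable {F : Type} [Field F] [NumberField F]

/-- **THE NODE OF helper298, v2 (`LocHypQ298b`), FROM THE CORE FORM.** -/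
theorem factUpQC298b_of_core514 (hC : FactUpQCore514 F) : FactUpQC298b F := by
  intro hT6 hF D hD hcyc hl ι hι μr hμr μc hμc T₀ hT₀ n m hlev
  obtain ⟨cG', hcG', h⟩ := hC hT6 hF D hD hcyc hl ι hι μr hμr μc hμc T₀ hT₀ n m hlev
  refine ⟨cG', hcG', ?_⟩
  intro S S' hTS hSS' φ₀ Φ f₀ F0 F1 hloc δ γ hγ hN hgood hint μT μT' hμT hμT' hlink L cT hL hcT
    hTor
  exact h S S' hTS hSS' φ₀ Φ f₀ (fun g => F0 g + F1 g) hloc.inv_up hloc.inv_down
    (fun w => ⟨(hloc.arch_up w).cont, (hloc.arch_up w).supp⟩) (fun v hv => hloc.inert v hv)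
    (fun v hv h2 => hloc.split v hv h2) hloc.arch δ γ hγ hN hgood hint μT μT' hμT hμT' hlink L
    cT hL hcT hTor

/-- **THE NODE OF helper298, v2, FROM THE FOUR.** -/
theorem factUpQC298b_of_leaves514 (hU : UpFactQCore514 F) (hI : LocEqInertQL514 F)
    (hS : LocEqSplitQL514 F) (hA : LocEqArchQL514 F) : FactUpQC298b F :=
  factUpQC298b_of_core514 (factUpQCore_of514 hU hI hS hA)

/-- VERBATIM checks. -/
example : UpFactQCore514 F → LocEqInertQL514 F → LocEqSplitQL514 F → LocEqArchQL514 F →
    Fermat.Agent.LT.T7.MQ298.FactUpQC298b F := factUpQC298b_of_leaves514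

end Fermat.Agent.LT.T7.FUQ514

end
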