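import Mathlib
import Fermat.Agent.LT.T7.H514.FactUpQCore
import Fermat.Agent.LT.T7.H659.LocEqArchQ

/-!
# Row LT, tower T7, leaf Q2.7.13.4c `LocEqArchQL514` (registry row 2711): LOC-EQ-ARCH over `ℚ`,
# LOCAL FORM -- PROVED, UNCONDITIONAL

OFF-MAIN.  No hole, nothing assumed.  THE PROOF IS helper659's (`T7/H659/LocEqArchQ.lean`,
helper659@fec9f51d2, `locEqArchQC659 : LocEqArchQC514 F`, the leaf of v1): that proof uses the
local hypotheses only through the clause `arch`, so the same script proves the local form (the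
lemmas of helper659 are cited, the last step takes the hypothesis `T6.IsArchMatch` directly).

    locEqArchQL514 (F) : LocEqArchQL514 F
-/

set_option autoImplicit false

open AutomorphicForm IsDedekindDomain NumberField MeasureTheory
open scoped ComplexConjugate

noncomputable section

namespace Fermat.Agent.LT.T7.FUQ514

open Fermat.Agent.LT.H556 Fermat.Agent.LT.H556.A0 Fermat.Agent.LT.T7 Fermat.Agent.LT.T7.H305
open Fermat.Agent.LT.T7.MQ298 Fermat.Agent.LT.T7.H340 Fermat.Agent.LT.T7.H659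

attribute [local instance] Fermat.Agent.LT.T5.instMeasurableSpaceG

/-- **LEAF Q2.7.13.4c = LOC-EQ-ARCH over `ℚ`, LOCAL FORM** (VERBATIM; proof of helper659). -/
theorem locEqArchQL514 (F : Type) [Field F] [NumberField F] : LocEqArchQL514 F := by
  intro hIQ D hD hcyc hl ι hι μr hμr μc hμc Φ Fr hArch δ γ hEll hN m L hL j J hJ
  obtain ⟨w, β', hβ'c, hβ'0, hβ', rfl⟩ := hJ
  -- the two rays
  obtain ⟨-, t, ht0, ht2, htr⟩ := hD.frame.ray
  obtain ⟨-, t', ht'0, ht'2, ht'r⟩ := hD.frame'.ray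
  have hfr : Module.finrank ℚ F = 2 := by rw [hcyc.degree, hl]
  rw [Module.finrank_self] at ht2
  rw [hfr] at ht'2
  have htt : t' ^ 2 = t := by
    have h1 : (t' ^ 2) ^ 2 = t ^ 2 := by
      rw [← pow_mul]
      exact ht'2.trans ht2.symm
    exact (pow_left_inj₀ (by positivity) ht0.le (by norm_num)).1 h1
  have ht'C : (t' : ℂ) ≠ 0 := Complex.ofReal_ne_zero.2 ht'0.ne'
  have hz : reGLQ298 D.R.r = Matrix.GeneralLinearGroup.scalar (Fin 2) (Units.mk0 t ht0.ne') :=
    reGLQ_of_scalar659 ht0.ne' (htr Rat.infinitePlace)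
  have hz' : infGL305 w D.R'.r
      = Matrix.GeneralLinearGroup.scalar (Fin 2) (Units.mk0 (t' : ℂ) ht'C) :=
    infGL_of_scalar659 ht'C (ht'r w)
  -- the element downstairs
  have hγ' : reGLQ298 (T5.ratG γ * D.R.r ^ j)
      = Matrix.GeneralLinearGroup.map (algebraMap ℚ ℝ) γ
        * Matrix.GeneralLinearGroup.scalar (Fin 2) ((Units.mk0 t ht0.ne') ^ j) := by
    rw [map_mul, map_zpow, hz, ← map_zpow, reGLQ_ratG659]
  have hc : T6.twCentSub (MonoidHom.id (GL (Fin 2) ℝ)) (reGLQ298 (T5.ratG γ * D.R.r ^ j))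
      = T6.twCentSub (MonoidHom.id (GL (Fin 2) ℝ)) (reGLQ298 (T5.ratG γ)) := by
    rw [hγ', reGLQ_ratG659]
    exact twCentSub_mul_central659 _ _ (fun x => Matrix.GeneralLinearGroup.scalar_commute _ x)
  have hreg : T6.IsReg (reGLQ298 (T5.ratG γ * D.R.r ^ j)) := by
    rw [hγ']
    show IsUnit (T6.disc _)
    rw [disc_mul_scalar659, disc_map659]
    exact IsUnit.mul (IsUnit.pow _ (Units.isUnit _))
      ((hEll.1 : IsUnit (T6.disc γ)).map (algebraMap ℚ ℝ))
  -- the element upstairs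
  have hσ : ∃ x : F, D.s.σ x ≠ x := by
    obtain ⟨x, hx⟩ := hD.cyc.faithful 1 one_pos (by rw [hl]; norm_num)
    exact ⟨x, by simpa using hx⟩
  have hconj : ∀ y : F, w.embedding (D.s.σ y) = conj (w.embedding y) :=
    embedding_conj659 hIQ.1 w D.s.σ hσ
  have hδ0 : infGL305 w (T5.ratG δ * D.R'.r ^ j)
      = Matrix.GeneralLinearGroup.map w.embedding δ
        * Matrix.GeneralLinearGroup.scalar (Fin 2) ((Units.mk0 (t' : ℂ) ht'C) ^ j) := by
    rw [map_mul, map_zpow, hz', ← map_zpow, infGL_ratG659]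
  have hsc : T6.glAut (starRingAut : ℂ ≃+* ℂ)
      (Matrix.GeneralLinearGroup.scalar (Fin 2) ((Units.mk0 (t' : ℂ) ht'C) ^ j))
      = Matrix.GeneralLinearGroup.scalar (Fin 2) ((Units.mk0 (t' : ℂ) ht'C) ^ j) := by
    refine map_scalar_eq659 ((starRingAut : ℂ ≃+* ℂ) : ℂ →+* ℂ) _ _ ?_
    show conj (((Units.mk0 (t' : ℂ) ht'C) ^ j : ℂˣ) : ℂ) = _
    rw [Units.val_zpow_eq_zpow_val, Units.val_mk0, map_zpow₀, Complex.conj_ofReal]
  have hemb : T6.glAut (starRingAut : ℂ ≃+* ℂ) (Matrix.GeneralLinearGroup.map w.embedding δ)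
      = Matrix.GeneralLinearGroup.map w.embedding (D.s.onRat δ) := by
    apply Units.ext
    ext a b
    exact (hconj _).symm
  have hnorm : D.s.normUpTo 2 δ = δ * D.s.onRat δ := by
    show δ * D.s.onRat (δ * D.s.onRat 1) = δ * D.s.onRat δ
    rw [map_one, mul_one]
  have hQ : Matrix.GeneralLinearGroup.map w.embedding
      (Matrix.GeneralLinearGroup.map (algebraMap ℚ F) γ)
      = Matrix.GeneralLinearGroup.map (algebraMap ℝ ℂ)
        (Matrix.GeneralLinearGroup.map (algebraMap ℚ ℝ) γ) := by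
    apply Units.ext
    ext a b
    show w.embedding (algebraMap ℚ F _) = algebraMap ℝ ℂ (algebraMap ℚ ℝ _)
    simp
  have hAB : Matrix.GeneralLinearGroup.map w.embedding δ
      * Matrix.GeneralLinearGroup.map w.embedding (D.s.onRat δ)
      = Matrix.GeneralLinearGroup.map (algebraMap ℝ ℂ)
        (Matrix.GeneralLinearGroup.map (algebraMap ℚ ℝ) γ) := by
    rw [← map_mul, ← hnorm, ← hQ, ← hN, hl]
  have hZ : Matrix.GeneralLinearGroup.map (algebraMap ℝ ℂ)
      (Matrix.GeneralLinearGroup.scalar (Fin 2) ((Units.mk0 t ht0.ne') ^ j))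
      = Matrix.GeneralLinearGroup.scalar (Fin 2) ((Units.mk0 (t' : ℂ) ht'C) ^ j)
        * Matrix.GeneralLinearGroup.scalar (Fin 2) ((Units.mk0 (t' : ℂ) ht'C) ^ j) := by
    rw [← map_mul]
    refine map_scalar_eq659 (algebraMap ℝ ℂ) _ _ ?_
    show ((((Units.mk0 t ht0.ne') ^ j : ℝˣ) : ℝ) : ℂ) = _
    rw [Units.val_mul, Units.val_zpow_eq_zpow_val, Units.val_zpow_eq_zpow_val, Units.val_mk0,
      Units.val_mk0, ← htt]
    push_cast
    rw [← mul_zpow, sq]
  have hδ' : T6.twNorm (starRingAut : ℂ ≃+* ℂ) 2 (infGL305 w (T5.ratG δ * D.R'.r ^ j))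
      = Matrix.GeneralLinearGroup.map (algebraMap ℝ ℂ) (reGLQ298 (T5.ratG γ * D.R.r ^ j)) := by
    rw [hδ0, hγ', map_mul (Matrix.GeneralLinearGroup.map (algebraMap ℝ ℂ)), hZ]
    exact twNorm_core659 _ _ _ _ hemb hsc
      (fun x => Matrix.GeneralLinearGroup.scalar_commute _ x) hAB
  exact (archMatch_of_cent_eq659 (hArch w) hreg hc L.μtr hL.torr L.βr hL.cutr.1
    hL.cutr.2.1 hL.cutr.2.2 _ hδ' β' hβ'c hβ'0 hβ').symm

end Fermat.Agent.LT.T7.FUQ514

end
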