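import Mathlib
import Fermat.Agent.LT.T7.H514.FactUpQCore
import Fermat.Agent.LT.T7.H1U.UpFactQTop

/-!
# Row LT, tower T7, node Q2.7.13.1c `UpFactQCore514` (registry rows 2676 / 2708):
# THE CORE FORM OF THE NODE FROM THE `W`-FORM OF helper1 -- PROVED

OFF-MAIN.  No hole, nothing assumed.  ADDITIVE (new names only, suffix `514`).

helper1 cut the node upstairs (`T7/H1U/UpFactQSpec.lean`, `UpFactQTop.lean`, helper1@7e90b91d7):

    H1U.upFactQW_of : UpDatExistsQC F → CutOnUpQC F → FactIntUpQC F → H1U.UpFactQWC F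

(`W`-form: the caller names the first places `w0c v` over the places of `S`, with the levels at
the split places for the enumerations which start with `w0c v`).  Here:

    upFactQCore_ofW514    : H1U.UpFactQWC F → UpFactQCore514 F
    upFactQCore_ofH1U514  : H1U.UpDatExistsQC F → H1U.CutOnUpQC F → H1U.FactIntUpQC F
                              → UpFactQCore514 F

Proof.  At a place `v ∈ S` with two places over it take `w0c v := w 0` for THE enumeration
`(w, i)` of the hypothesis (`SplitClauseQ514`), elsewhere any place over `v`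
(`H510.exists_placeOver_E510`).  An enumeration in the order of the orbit is determined by its
first place (`T5.PlaceRel s a b` is `b = σ(a)`, the map of ideals along a ring isomorphism is
injective: `enum_eq514`) and the identifications `ℚ_v ≃ F_{w j}` are determined by their values
on `ℚ` (`eq_of_val_of_rat514`, the lemma of helper1 `H1G.eq_of_val_of_rat_H1G`): so the levels
agree for every enumeration which starts with `w0c v`, and the enumeration of the split value of
the `W`-form IS the enumeration of the hypothesis, for which the convolution identity holds.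
-/

set_option autoImplicit false

open AutomorphicForm IsDedekindDomain NumberField MeasureTheory
open scoped ComplexConjugate

noncomputable section

namespace Fermat.Agent.LT.T7.FUQ514

open Fermat.Agent.LT.H556 Fermat.Agent.LT.H556.A0 Fermat.Agent.LT.T7 Fermat.Agent.LT.T7.H305
open Fermat.Agent.LT.T7.MQ298 Fermat.Agent.LT.T7.H340

attribute [local instance] Fermat.Agent.LT.T5.instMeasurableSpaceG

/-! ## 1. Uniqueness of the enumeration and of the identifications -/

section Uniq

variable {K : Type} [Field K] [NumberField K]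

/-- `T5.PlaceRel s a b` (`b = σ(a)`) determines `a`. -/
theorem placeRel_inj514 (s : T5.AdelicAut K) {a a' b : HeightOneSpectrum (𝓞 K)}
    (h : T5.PlaceRel s a b) (h' : T5.PlaceRel s a' b) : a = a' := by
  have h1 : Ideal.map (NumberField.RingOfIntegers.mapRingEquiv s.σ) a.asIdeal
      = Ideal.map (NumberField.RingOfIntegers.mapRingEquiv s.σ) a'.asIdeal :=
    h.symm.trans h'
  have h2 := congrArg (Ideal.comap (NumberField.RingOfIntegers.mapRingEquiv s.σ)) h1
  rw [Ideal.comap_map_of_bijective _ (RingEquiv.bijective _),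
    Ideal.comap_map_of_bijective _ (RingEquiv.bijective _)] at h2
  exact HeightOneSpectrum.ext h2

/-- An enumeration in the order of the orbit is determined by its first place. -/
theorem enum_eq514 (s : T5.AdelicAut K) {w w' : ℕ → HeightOneSpectrum (𝓞 K)}
    (h0 : w 0 = w' 0) (h : ∀ j : ℕ, T5.PlaceRel s (w (j + 1)) (w j))
    (h' : ∀ j : ℕ, T5.PlaceRel s (w' (j + 1)) (w' j)) : w = w' := by
  funext j
  induction j with
  | zero => exact h0
  | succ j ih =>
    have hj := h j
    rw [ih] at hj
    exact placeRel_inj514 s hj (h' j)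

open WithZeroTopology in
/-- Two ring homomorphisms `K_v → B` into a valued field which multiply the valuation by
positive powers and agree on `K` are equal (helper1, `H1G.eq_of_val_of_rat_H1G`; the proof is
his). -/
theorem eq_of_val_of_rat514 (v : HeightOneSpectrum (𝓞 K)) {B : Type} [Field B]
    [Valued B (WithZero (Multiplicative ℤ))]
    (f g : v.adicCompletion K →+* B) (e e' : ℕ) (he : 0 < e) (he' : 0 < e')
    (hf : ∀ c, Valued.v (f c) = Valued.v c ^ e) (hg : ∀ c, Valued.v (g c) = Valued.v c ^ e')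
    (hfg : ∀ y : K, f (algebraMap K (v.adicCompletion K) y)
      = g (algebraMap K (v.adicCompletion K) y)) (c : v.adicCompletion K) : f c = g c := by
  by_contra hne
  have hd : f c - g c ≠ 0 := sub_ne_zero.2 hne
  set γ : WithZero (Multiplicative ℤ) := Valued.v (f c - g c) with hγ
  have hγ0 : γ ≠ 0 := (Valuation.ne_zero_iff _).2 hd
  have hcont : Continuous fun c' : v.adicCompletion K => Valued.v (c' - c) :=
    (Valued.continuous_valuation_of_surjective
      (HeightOneSpectrum.valuedAdicCompletion_surjective K v)).comp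
      (continuous_id.sub continuous_const)
  have hopen : IsOpen {c' : v.adicCompletion K | Valued.v (c' - c) < min γ 1} := by
    exact (WithZeroTopology.isOpen_Iio (a := min γ 1)).preimage hcont
  have hmem : c ∈ {c' : v.adicCompletion K | Valued.v (c' - c) < min γ 1} := by
    show Valued.v (c - c) < min γ 1
    rw [sub_self, map_zero]
    exact lt_min (zero_lt_iff.2 hγ0) zero_lt_one
  obtain ⟨_, hy1, ⟨y, rfl⟩⟩ := (v.denseRange_algebraMap K).inter_open_nonempty _ hopen ⟨c, hmem⟩
  have hy : Valued.v (algebraMap K (v.adicCompletion K) y - c) < min γ 1 := hy1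
  set t : v.adicCompletion K := c - algebraMap K (v.adicCompletion K) y with ht
  have hvt : Valued.v t < min γ 1 := by
    rw [ht, ← neg_sub, Valuation.map_neg]
    exact hy
  have hvt1 : Valued.v t ≤ 1 := (hvt.trans_le (min_le_right _ _)).le
  have hvtγ : Valued.v t < γ := hvt.trans_le (min_le_left _ _)
  have hdiff : f c - g c = f t - g t := by
    rw [ht, map_sub, map_sub, hfg y]
    ring
  have hpow : ∀ n : ℕ, 0 < n → Valued.v t ^ n ≤ Valued.v t := by
    intro n hn
    obtain ⟨m, rfl⟩ : ∃ m, n = m + 1 := ⟨n - 1, by omega⟩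
    rw [pow_succ]
    calc Valued.v t ^ m * Valued.v t ≤ 1 * Valued.v t :=
          mul_le_mul_left (pow_le_one' hvt1 m) _
      _ = Valued.v t := one_mul _
  have hle : γ ≤ Valued.v t := by
    rw [hγ, hdiff]
    refine (Valuation.map_sub _ _ _).trans (max_le ?_ ?_)
    · rw [hf]
      exact hpow e he
    · rw [hg]
      exact hpow e' he'
  exact absurd hvtγ (not_lt.2 hle)

end Uniq

/-! ## 2. The core form from the `W`-form -/

variable {F : Type} [Field F] [NumberField F]

/-- **THE CORE FORM OF THE NODE FROM THE `W`-FORM OF helper1.** -/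
theorem upFactQCore_ofW514 (hW : H1U.UpFactQWC F) : UpFactQCore514 F := by
  intro hT6 hIQ D hD hcyc hl ι hι μc hμc T₀ hT₀ n m hnm
  obtain ⟨cG', hcG', hW'⟩ := hW hT6 hIQ D hD hcyc hl ι hι μc hμc T₀ hT₀ n m hnm
  refine ⟨cG', hcG', ?_⟩
  intro S S' hS hSS' φ₀ Φ f₀ hup hΦ hsp δ γ hγ hN hgood hio μT μT' hμT hμT' hlink L cT hL hcT
    hTc
  classical
  -- the first places: at a split place of `S` the first place of the enumeration of the
  -- hypothesis, elsewhere any place over `v`
  have key : ∀ v : HeightOneSpectrum (𝓞 ℚ), ∃ w0 : HeightOneSpectrum (𝓞 F),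
      PlaceOver ℚ F v w0 ∧
      ((v ∈ S ∧ ∃ w₁ w₂ : HeightOneSpectrum (𝓞 F),
          PlaceOver ℚ F v w₁ ∧ PlaceOver ℚ F v w₂ ∧ w₁ ≠ w₂) →
        ∃ (w : ℕ → HeightOneSpectrum (𝓞 F))
          (i : ∀ j : ℕ, v.adicCompletion ℚ ≃+* (w j).adicCompletion F),
          w 0 = w0 ∧
          (∀ j : ℕ, T5.PlaceRel D.s (w (j + 1)) (w j)) ∧
          (∀ (j : ℕ) (x : ℚ), i j (algebraMap ℚ (v.adicCompletion ℚ) x)
            = algebraMap F ((w j).adicCompletion F) (algebraMap ℚ F x)) ∧
          (∀ (j : ℕ) (x : v.adicCompletion ℚ), Valued.v (i j x) = Valued.v x) ∧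
          (∀ j : ℕ, n (w j) = m v) ∧
            T6.IsConvProd (T6.InU (m v)) D.l
              (fun j g => φ₀ (w j)
                (Matrix.GeneralLinearGroup.map ((i j : v.adicCompletion ℚ ≃+* _) :
                  v.adicCompletion ℚ →+* (w j).adicCompletion F) g))
              (f₀ v)) := by
    intro v
    by_cases hP : v ∈ S ∧ ∃ w₁ w₂ : HeightOneSpectrum (𝓞 F),
        PlaceOver ℚ F v w₁ ∧ PlaceOver ℚ F v w₂ ∧ w₁ ≠ w₂
    · obtain ⟨w, i, g1, g2, _, g4, g5, g6, g7⟩ := hsp v hP.1 hP.2
      exact ⟨w 0, g1 0, fun _ => ⟨w, i, rfl, g2, g4, g5, g6, g7⟩⟩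
    · obtain ⟨w0, hw0⟩ := Fermat.Agent.LT.T7.H510.exists_placeOver_E510 (K' := F) v
      exact ⟨w0, hw0, fun h => absurd h hP⟩
  choose w0c hw0c hw0s using key
  have h12 : (1 : ℕ) < D.l := by rw [hl]; norm_num
  have hlev : H1U.LevelsAtSplitQ D n m S w0c := by
    intro v hv w i hw0 h1 h2 h3 _ _ j
    obtain ⟨wh, ih, gh0, g2, _, _, g6, _⟩ :=
      hw0s v ⟨hv, w 1, w 0, h1 1, h1 0, h3 1 one_pos h12⟩
    have hw : w = wh := enum_eq514 D.s (hw0.trans gh0.symm) h2 g2
    rw [hw]
    exact g6 j
  obtain ⟨U, J, Jc, hU0, hU, hcut, hval⟩ := hW' S S' hS hSS' φ₀ Φ hup hΦ w0c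
    (fun v _ => hw0c v) hlev δ γ hγ hN hgood hio μT μT' hμT hμT' hlink L cT hL hcT hTc
  refine ⟨H1U.prodCutUpQ S' S cT U, J, Jc, hcut, hval, ?_, ?_⟩
  · intro v hv
    rcases hU.1 v hv with h | h
    · exact Or.inl (H1U.isInertVal_of_at h)
    · right
      obtain ⟨hl0, w, i, hw0, hlevw, _, h1, h2, h3, h4, h5, hJ⟩ := h
      obtain ⟨wh, ih, gh0, g2, g4, g5, _, g7⟩ :=
        hw0s v ⟨hv, w 1, w 0, h1 1, h1 0, h3 1 one_pos h12⟩
      have hU0v : U.w0 v = w0c v := congrFun hU0 v
      obtain rfl : w = wh := enum_eq514 D.s (hw0.trans (hU0v.trans gh0.symm)) h2 g2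
      have hi : i = ih := by
        funext j
        apply RingEquiv.ext
        intro x
        exact eq_of_val_of_rat514 v ((i j : v.adicCompletion ℚ ≃+* _) :
            v.adicCompletion ℚ →+* (w j).adicCompletion F)
          ((ih j : v.adicCompletion ℚ ≃+* _) :
            v.adicCompletion ℚ →+* (w j).adicCompletion F) 1 1 one_pos one_pos
          (fun c => by rw [pow_one]; exact h5 j c) (fun c => by rw [pow_one]; exact g5 j c)
          (fun y => (h4 j y).trans (g4 j y).symm) x
      subst hi
      exact ⟨hl0, w, i, h1, h2, h3, h4, h5, hlevw, g7, hJ⟩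
  · intro j
    exact H1U.isArchVal_of_at hU.2 j

/-- **THE CORE FORM OF THE NODE FROM THE THREE PARTS OF THE CUT OF helper1.** -/
theorem upFactQCore_ofH1U514 (hE : H1U.UpDatExistsQC F) (hA : H1U.CutOnUpQC F)
    (hB : H1U.FactIntUpQC F) : UpFactQCore514 F :=
  upFactQCore_ofW514 (H1U.upFactQW_of F hE hA hB)

end Fermat.Agent.LT.T7.FUQ514

end
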