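import Mathlib
import Fermat.Agent.LT.T7.H514.FactUpQTop2
import Fermat.Agent.LT.T7.H514.UpFactQCoreOfW
import Fermat.Agent.LT.T7.H514.LocEqArchQL
import Fermat.Agent.LT.T7.H757.LocEqInertQL

/-!
# Row LT, tower T7, node Q2.7.13 v2 `MQ298.FactUpQC298b` (registry row 2676, helper514):
# INTEGRATION of the closed leaves

OFF-MAIN.  No hole, nothing assumed.  ADDITIVE (new names only, suffix `514`).

CLOSED leaves: `LocEqInertQL514` (helper757, `H757.locEqInertQL757`), `LocEqArchQL514`
(`locEqArchQL514`, proof of helper659).  The node upstairs `UpFactQCore514` is reduced to the three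
parts of the cut of helper1 (`upFactQCore_ofH1U514`).  OPEN: the three parts of helper1
(`H1U.UpDatExistsQC`, `H1U.CutOnUpQC`, `H1U.FactIntUpQC`, registry rows 2785 - 2787) and
`LocEqSplitQL514` (registry row 2710).

    factUpQC298b_of_open514 : H1U.UpDatExistsQC F → H1U.CutOnUpQC F → H1U.FactIntUpQC F →
        LocEqSplitQL514 F → MQ298.FactUpQC298b F                                  (VERBATIM)
    factUpQCore_of_open514  : the same four → FactUpQCore514 F
-/

set_option autoImplicit false

open AutomorphicForm IsDedekindDomain NumberField MeasureTheory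
open scoped ComplexConjugate

noncomputable section

namespace Fermat.Agent.LT.T7.FUQ514

open Fermat.Agent.LT.H556 Fermat.Agent.LT.H556.A0 Fermat.Agent.LT.T7 Fermat.Agent.LT.T7.H305
open Fermat.Agent.LT.T7.MQ298 Fermat.Agent.LT.T7.H340

attribute [local instance] Fermat.Agent.LT.T5.instMeasurableSpaceG

variable {F : Type} [Field F] [NumberField F]

/-- **THE CORE FORM FROM THE FOUR OPEN LEAVES.** -/
theorem factUpQCore_of_open514 (hE : H1U.UpDatExistsQC F) (hA : H1U.CutOnUpQC F)
    (hB : H1U.FactIntUpQC F) (hS : LocEqSplitQL514 F) : FactUpQCore514 F :=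
  factUpQCore_of514 (upFactQCore_ofH1U514 hE hA hB) (H757.locEqInertQL757 F) hS
    (locEqArchQL514 F)

/-- **THE NODE OF helper298, v2, FROM THE FOUR OPEN LEAVES.** -/
theorem factUpQC298b_of_open514 (hE : H1U.UpDatExistsQC F) (hA : H1U.CutOnUpQC F)
    (hB : H1U.FactIntUpQC F) (hS : LocEqSplitQL514 F) : FactUpQC298b F :=
  factUpQC298b_of_core514 (factUpQCore_of_open514 hE hA hB hS)

/-- VERBATIM check. -/
example : Fermat.Agent.LT.T7.H1U.UpDatExistsQC F → Fermat.Agent.LT.T7.H1U.CutOnUpQC F →
    Fermat.Agent.LT.T7.H1U.FactIntUpQC F → LocEqSplitQL514 F →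
    Fermat.Agent.LT.T7.MQ298.FactUpQC298b F := factUpQC298b_of_open514

end Fermat.Agent.LT.T7.FUQ514

end
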