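import Mathlib
import Fermat.Agent.LT.T7.H514.FactUpQClosed
import Fermat.Agent.LT.T7.H662.LocEqSplitQ

/-!
# Row LT, tower T7, node Q2.7.13 v2 `MQ298.FactUpQC298b` (registry row 2676, helper514):
# INTEGRATION 2 of the closed leaves (all the LOCAL leaves are closed)

OFF-MAIN.  No hole, nothing assumed.  ADDITIVE (new names only, suffix `514`).

CLOSED leaves: `LocEqInertQL514` (helper757, `H757.locEqInertQL757`), `LocEqSplitQL514`
(helper662, `H662.locEqSplitQL514_662`), `LocEqArchQL514` (`locEqArchQL514`, proof of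
helper659).  OPEN: the three parts of the cut of helper1 of the node upstairs
(`H1U.UpDatExistsQC`, `H1U.CutOnUpQC`, `H1U.FactIntUpQC`, registry rows 2785 - 2787).

    factUpQC298b_of_up514 : H1U.UpDatExistsQC F → H1U.CutOnUpQC F → H1U.FactIntUpQC F →
        MQ298.FactUpQC298b F                                                      (VERBATIM)
    factUpQC298b_of_upW514 : H1U.UpFactQWC F → MQ298.FactUpQC298b F
    factUpQC298b_of_upCore514 : UpFactQCore514 F → MQ298.FactUpQC298b F
-/

set_option autoImplicit false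

open AutomorphicForm IsDedekindDomain NumberField MeasureTheory
open scoped ComplexConjugate

noncomputable section

namespace Fermat.Agent.LT.T7.FUQ514

open Fermat.Agent.LT.H556 Fermat.Agent.LT.H556.A0 Fermat.Agent.LT.T7 Fermat.Agent.LT.T7.H305
open Fermat.Agent.LT.T7.MQ298 Fermat.Agent.LT.T7.H340

attribute [local instance] Fermat.Agent.LT.T5.instMeasurableSpaceG

variable {F : Type} [Field F] [NumberField F]

/-- **THE NODE OF helper298, v2, FROM THE NODE UPSTAIRS IN CORE FORM** (the three local leaves
are closed). -/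
theorem factUpQC298b_of_upCore514 (hU : UpFactQCore514 F) : FactUpQC298b F :=
  factUpQC298b_of_leaves514 hU (H757.locEqInertQL757 F) (H662.locEqSplitQL514_662 F)
    (locEqArchQL514 F)

/-- **THE NODE OF helper298, v2, FROM THE `W`-FORM OF helper1.** -/
theorem factUpQC298b_of_upW514 (hW : H1U.UpFactQWC F) : FactUpQC298b F :=
  factUpQC298b_of_upCore514 (upFactQCore_ofW514 hW)

/-- **THE NODE OF helper298, v2, FROM THE THREE PARTS OF THE CUT OF helper1.** -/
theorem factUpQC298b_of_up514 (hE : H1U.UpDatExistsQC F) (hA : H1U.CutOnUpQC F)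
    (hB : H1U.FactIntUpQC F) : FactUpQC298b F :=
  factUpQC298b_of_open514 hE hA hB (H662.locEqSplitQL514_662 F)

/-- VERBATIM check. -/
example : Fermat.Agent.LT.T7.H1U.UpDatExistsQC F → Fermat.Agent.LT.T7.H1U.CutOnUpQC F →
    Fermat.Agent.LT.T7.H1U.FactIntUpQC F →
    Fermat.Agent.LT.T7.MQ298.FactUpQC298b F := factUpQC298b_of_up514

end Fermat.Agent.LT.T7.FUQ514

end
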